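import Mathlib
import Fermat.Agent.LT.T7.B970.Pair2Spec
import Fermat.Agent.LT.T7.H281.LevelInv
import Fermat.Agent.LT.T7.H340.IwKit
import Fermat.Agent.LT.H129.CartanInv
import Fermat.Agent.LT.T6.H777.Lvl

/-!
# Row LT, tower T7, leaf T7.L2.1.H2a.4.4 `Up2C970` (helper218, registry row 2865): pure tensors

OFF-MAIN.  Invariance of a pure tensor `H305.pure305 T f₀ F` under an adelic element whose
components stabilise the components of the tensor; the three local stabilisers (Iwahori
function, unit of a level, spherical function).  Mathlib + byte-identical kits only.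
-/

set_option autoImplicit false
set_option linter.unusedSectionVars false
set_option linter.unusedVariables false

open IsDedekindDomain NumberField MeasureTheory IsDedekindDomain.HeightOneSpectrum
open Fermat.Agent.LT.H556 Fermat.Agent.LT.H556.A0 Fermat.Agent.LT.H129

noncomputable section

namespace Fermat.Agent.LT.T7.H218

open Fermat.Agent.LT Fermat.Agent.LT.T7 Fermat.Agent.LT.T7.H893 Fermat.Agent.LT.T7.H305
open Fermat.Agent.LT.T7.H340

/-! ## 1. Components -/

section Comp

variable {K : Type} [Field K] [NumberField K]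

theorem finGL_eq218 (v : HeightOneSpectrum (𝓞 K)) (g : G K) :
    finGL305 v g = finCompHom129 v g := rfl

theorem coe_finGL218 (v : HeightOneSpectrum (𝓞 K)) (g : G K) :
    ((finGL305 v g : GL (Fin 2) (v.adicCompletion K)) :
      Matrix (Fin 2) (Fin 2) (v.adicCompletion K)) = finComp v g := rfl

theorem infGL_one_of_triv218 {w : InfinitePlace K} {h : G K} (hh : TrivAtInf w h) :
    infGL305 w h = 1 := by
  apply Units.ext
  ext i j
  show InfinitePlace.Completion.extensionEmbedding w
      (((h : Matrix (Fin 2) (Fin 2) (Adl K)) i j).1 w) = (1 : Matrix (Fin 2) (Fin 2) ℂ) i j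
  rw [hh i j]
  by_cases hij : i = j
  · subst hij
    rw [Matrix.one_apply_eq, Matrix.one_apply_eq, map_one]
  · rw [Matrix.one_apply_ne hij, Matrix.one_apply_ne hij, map_zero]

theorem finGL_one_of_triv218 {v : HeightOneSpectrum (𝓞 K)} {h : G K} (hh : TrivAtFin v h) :
    finGL305 v h = 1 := (trivAtFin_iff129 v h).1 hh

/-- `h` is in `GL₂(𝒪_v)` at every finite place. -/
def IsHatG218 (h : G K) : Prop :=
  ∀ v : HeightOneSpectrum (𝓞 K), IsIntegralAt v h ∧ IsIntegralAt v h⁻¹

theorem isIntegralAt_mul218 {v : HeightOneSpectrum (𝓞 K)} {g h : G K}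
    (hg : IsIntegralAt v g) (hh : IsIntegralAt v h) : IsIntegralAt v (g * h) := by
  intro i j
  have e : finComp v (g * h) = finComp v g * finComp v h := by
    rw [← coe_finCompHom129, map_mul]
    rfl
  rw [e, Matrix.mul_apply]
  exact Subring.sum_mem _ fun k _ => Subring.mul_mem _ (hg i k) (hh k j)

theorem outT_mul_left218 {T : Finset (HeightOneSpectrum (𝓞 K))} {h y : G K}
    (hh : IsHatG218 h) : OutT305 T (h * y) ↔ OutT305 T y := by
  constructor
  · intro H v hv
    obtain ⟨h1, h2⟩ := H v hv
    refine ⟨?_, ?_⟩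
    · have : y = h⁻¹ * (h * y) := by group
      rw [this]
      exact isIntegralAt_mul218 (hh v).2 h1
    · have : y⁻¹ = (h * y)⁻¹ * h := by group
      rw [this]
      exact isIntegralAt_mul218 h2 (hh v).1
  · intro H v hv
    obtain ⟨h1, h2⟩ := H v hv
    refine ⟨isIntegralAt_mul218 (hh v).1 h1, ?_⟩
    rw [mul_inv_rev]
    exact isIntegralAt_mul218 h2 (hh v).2

theorem outT_mul_right218 {T : Finset (HeightOneSpectrum (𝓞 K))} {h y : G K}
    (hh : IsHatG218 h) : OutT305 T (y * h) ↔ OutT305 T y := by
  constructor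
  · intro H v hv
    obtain ⟨h1, h2⟩ := H v hv
    refine ⟨?_, ?_⟩
    · have : y = (y * h) * h⁻¹ := by group
      rw [this]
      exact isIntegralAt_mul218 h1 (hh v).2
    · have : y⁻¹ = h * (y * h)⁻¹ := by group
      rw [this]
      exact isIntegralAt_mul218 (hh v).1 h2
  · intro H v hv
    obtain ⟨h1, h2⟩ := H v hv
    refine ⟨isIntegralAt_mul218 h1 (hh v).1, ?_⟩
    rw [mul_inv_rev]
    exact isIntegralAt_mul218 (hh v).2 h2

/-- **Invariance of a pure tensor** under an element which is trivial at infinity, integral at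
all finite places and stabilises the components at the places of `T`. -/
theorem pure_inv218 {T : Finset (HeightOneSpectrum (𝓞 K))}
    {f₀ : ∀ v : HeightOneSpectrum (𝓞 K), GL (Fin 2) (v.adicCompletion K) → ℂ}
    {F : InfinitePlace K → GL (Fin 2) ℂ → ℂ} {h : G K}
    (hinf : ∀ w : InfinitePlace K, TrivAtInf w h) (hint : IsHatG218 h)
    (hloc : ∀ v ∈ T, ∀ x : GL (Fin 2) (v.adicCompletion K),
      f₀ v (finGL305 v h * x) = f₀ v x ∧ f₀ v (x * finGL305 v h) = f₀ v x) (y : G K) :
    pure305 T f₀ F (h * y) = pure305 T f₀ F y ∧ pure305 T f₀ F (y * h) = pure305 T f₀ F y := by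
  classical
  constructor
  · unfold pure305
    simp only [outT_mul_left218 hint]
    split_ifs with hy
    · congr 1
      · refine Finset.prod_congr rfl fun v hv => ?_
        rw [map_mul]
        exact (hloc v hv _).1
      · refine Finset.prod_congr rfl fun w _ => ?_
        rw [map_mul, infGL_one_of_triv218 (hinf w), one_mul]
    · rfl
  · unfold pure305
    simp only [outT_mul_right218 hint]
    split_ifs with hy
    · congr 1
      · refine Finset.prod_congr rfl fun v hv => ?_
        rw [map_mul]
        exact (hloc v hv _).2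
      · refine Finset.prod_congr rfl fun w _ => ?_
        rw [map_mul, infGL_one_of_triv218 (hinf w), mul_one]
    · rfl

end Comp

/-! ## 2. The local stabilisers -/

section Local

variable {k : Type} [Field k] [Valued k T6.Γ₀]

theorem inIw_iff218 (x : GL (Fin 2) k) : InIw893 x ↔ IsIwG340 (Valued.v : Valuation k _) x :=
  Iff.rfl

theorem iwFn_inv218 {u : GL (Fin 2) k} (hu : InIw893 u) (x : GL (Fin 2) k) :
    iwFn893 (u * x) = iwFn893 x ∧ iwFn893 (x * u) = iwFn893 x := by
  classical
  have hu' : IsIwG340 (Valued.v : Valuation k _) u := hu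
  have e1 : InIw893 (u * x) ↔ InIw893 x := by
    constructor
    · intro H
      have : x = u⁻¹ * (u * x) := by group
      rw [this]
      exact isIwG340_mul (isIwG340_inv hu') H
    · intro H
      exact isIwG340_mul hu' H
  have e2 : InIw893 (x * u) ↔ InIw893 x := by
    constructor
    · intro H
      have : x = (x * u) * u⁻¹ := by group
      rw [this]
      exact isIwG340_mul H (isIwG340_inv hu')
    · intro H
      exact isIwG340_mul H hu'
  unfold iwFn893
  simp only [e1, e2, and_self]

theorem unitFn_inv218 {n : ℕ} {u : GL (Fin 2) k} (hu : T6.InU n u) (x : GL (Fin 2) k) :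
    unitFn893 n (u * x) = unitFn893 n x ∧ unitFn893 n (x * u) = unitFn893 n x := by
  classical
  have e1 : T6.InU n (u * x) ↔ T6.InU n x := by
    constructor
    · intro H
      have : x = u⁻¹ * (u * x) := by group
      rw [this]
      exact T6.H777.inU_mul777 (T6.H777.inU_inv777 hu) H
    · intro H
      exact T6.H777.inU_mul777 hu H
  have e2 : T6.InU n (x * u) ↔ T6.InU n x := by
    constructor
    · intro H
      have : x = (x * u) * u⁻¹ := by group
      rw [this]
      exact T6.H777.inU_mul777 H (T6.H777.inU_inv777 hu)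
    · intro H
      exact T6.H777.inU_mul777 H hu
  unfold unitFn893
  simp only [e1, e2, and_self]

theorem sphFn_inv218 {φ : GL (Fin 2) k → ℂ} {A : (ℤ × ℤ) →₀ ℂ} (hφ : IsSphFn893 φ A)
    {u : GL (Fin 2) k} (hu : T6.InU 0 u) (x : GL (Fin 2) k) :
    φ (u * x) = φ x ∧ φ (x * u) = φ x := by
  have h1 : T6.InU 0 (1 : GL (Fin 2) k) := T6.H777.inU_one777 0
  constructor
  · rw [hφ.2, hφ.2]
    have := cartan_mul129 (g := x) hu h1
    rw [mul_one] at this
    rw [this]
  · rw [hφ.2, hφ.2]
    have := cartan_mul129 (g := x) h1 hu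
    rw [one_mul] at this
    rw [this]

end Local

end Fermat.Agent.LT.T7.H218

end
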