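import Mathlib
import Fermat.Agent.LT.T7.H218.Up2Pure
import Fermat.Agent.LT.T7.H311.EkProdTools
import Fermat.Agent.LT.T7.H277.ROps
import Fermat.Agent.LT.T7.H193.NatTools
import Fermat.Agent.LT.T1.Closed

/-!
# Row LT, tower T7, leaf T7.L2.1.H2a.4.4 `Up2C970` (helper218, registry row 2865)

OFF-MAIN.  `up2C218 (K K') : B970.Up2C970 K K'` VERBATIM (spec `T7/B970/Pair2Spec.lean` of
helper970, sha256 fab97ceab0e09862), unconditional.

The proof follows the header of the spec.  `Ψ = lsum s' (Φ₁ [])`: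
* `Ψ = ∫ P_ω dν(ω)`, `P_ω` = the pure tensor with the REPLACED components (`rep` of
  `IsWtUp970` termwise, finite sum under the integral);
* `P_ω` is bi-invariant under `U(𝔑₀)` and under the Iwahori elements of the orbit
  (`pure_inv218` + the three local stabilisers), hence `Ψ` is (`IsBiHInv`);
* `Ψ` is `IsPre311` (left translates by elements trivial at infinity, finite sums), hence a
  test function of the level `𝔫 𝒪_{K'}`;
* `♮`: `H193.killing_of_torus193`; the operator identity `Rconv_lsum277` + `up1_op`;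
* support: the component of `P_ω` at a place of the orbit is the Iwahori function.
-/

set_option autoImplicit false
set_option linter.unusedSectionVars false
set_option linter.unusedVariables false

open IsDedekindDomain NumberField MeasureTheory IsDedekindDomain.HeightOneSpectrum
open AutomorphicForm
open Fermat.Agent.LT.H556 Fermat.Agent.LT.H556.A0 Fermat.Agent.LT.H129

noncomputable section

namespace Fermat.Agent.LT.T7.H218

open Fermat.Agent.LT Fermat.Agent.LT.T7 Fermat.Agent.LT.T7.H893 Fermat.Agent.LT.T7.H305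
open Fermat.Agent.LT.T7.H340 Fermat.Agent.LT.T7.B981 Fermat.Agent.LT.T7.B970

attribute [local instance] Fermat.Agent.LT.T5.instMeasurableSpaceG

/-! ## 1. Local facts -/

section OneField

variable {F : Type} [Field F] [NumberField F]

theorem inIw_of_inIwahori218 {w : HeightOneSpectrum (𝓞 F)} {h : G F}
    (hh : T5.InIwahori w h) : InIw893 (finGL305 w h) :=
  (inIwahori_iff340 w h).1 hh

theorem inIwahori_of_inIw218 {w : HeightOneSpectrum (𝓞 F)} {h : G F}
    (hh : InIw893 (finGL305 w h)) : T5.InIwahori w h :=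
  (inIwahori_iff340 w h).2 hh

theorem inU_of_level218 {𝔑 : Ideal (𝓞 F)} {n₀ : HeightOneSpectrum (𝓞 F) → ℕ}
    (hn : IsLevelOf893 𝔑 n₀) {h : G F} (hh : InLevelGroup 𝔑 h)
    (w : HeightOneSpectrum (𝓞 F)) : T6.InU (n₀ w) (finGL305 w h) := by
  intro i j
  refine ⟨?_, ?_⟩
  · have h1 := (hn w _).1 (hh.2 w i j).1
    rw [Matrix.sub_apply] at h1
    exact h1
  · have h1 := (hn w _).1 (hh.2 w i j).2
    rw [Matrix.sub_apply] at h1
    have e : (((finGL305 w h)⁻¹ : GL (Fin 2) (w.adicCompletion F)) :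
        Matrix (Fin 2) (Fin 2) (w.adicCompletion F)) = finComp w h⁻¹ := by
      rw [← map_inv]
      rfl
    rw [e]
    exact h1

end OneField

section Local

variable {k : Type} [Field k] [Valued k T6.Γ₀]

theorem inU_zero218 {n : ℕ} {g : GL (Fin 2) k} (hg : T6.InU n g) : T6.InU 0 g := by
  intro i j
  have hle : WithZero.exp (-(n : ℤ)) ≤ (WithZero.exp (-((0 : ℕ) : ℤ)) : T6.Γ₀) := by
    rw [WithZero.exp_le_exp]
    omega
  exact ⟨(hg i j).1.trans hle, (hg i j).2.trans hle⟩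

end Local

/-! ## 2. The stabiliser of the replaced components -/

section Stab

variable {K K' : Type} [Field K] [NumberField K] [Field K'] [NumberField K'] [Algebra K K']

theorem upI_ne_bot218 {𝔫 : Ideal (𝓞 K)} (h : 𝔫 ≠ ⊥) : upI (K' := K') 𝔫 ≠ ⊥ := by
  unfold upI
  intro h0
  rw [Ideal.map_eq_bot_iff_of_injective (FaithfulSMul.algebraMap_injective (𝓞 K) (𝓞 K'))] at h0
  exact h h0

/-- The elements which stabilise the replaced components: trivial at infinity, in `GL₂(𝒪_w)`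
at every finite place, Iwahori along the orbit, in `U(n₀ w)` outside the orbit. -/
structure IsStab218 (B : L2Base K K') (n₀ : HeightOneSpectrum (𝓞 K') → ℕ) (h : G K') :
    Prop where
  inf : ∀ w : InfinitePlace K', TrivAtInf w h
  int : IsHatG218 h
  orbit : ∀ w : HeightOneSpectrum (𝓞 K'), PlaceOver K K' B.u w → InIw893 (finGL305 w h)
  base : ∀ w : HeightOneSpectrum (𝓞 K'), ¬ PlaceOver K K' B.u w →
    T6.InU (n₀ w) (finGL305 w h)

theorem isStab_of_level218 {ℓ : ℕ} {Φ : HeckeEigensystem K' ℂ} {B : L2Base K K'}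
    (hB : IsL2Base ℓ Φ B) {n₀ : HeightOneSpectrum (𝓞 K') → ℕ}
    (hn : IsLevelOf893 B.𝔑₀ n₀) {h : G K'} (hh : InLevelGroup B.𝔑₀ h) :
    IsStab218 B n₀ h where
  inf := hh.1
  int := fun v => H281.isIntegralAt_of_level281 hh v
  orbit := fun w hw => by
    obtain ⟨j, hj, rfl⟩ := hB.orbit_all w hw
    exact inIw_of_inIwahori218
      (H281.inIwahori_of_level281 ((hB.mem_S' _).1 (hB.orbit_level j)) hh)
  base := fun w _ => inU_of_level218 hn hh w

theorem isStab_of_iw218 {ℓ : ℕ} {Φ : HeckeEigensystem K' ℂ} {B : L2Base K K'}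
    (hB : IsL2Base ℓ Φ B) {n₀ : HeightOneSpectrum (𝓞 K') → ℕ} {h : G K'}
    (hh : H193.IsIwElt ℓ B.o h) : IsStab218 B n₀ h where
  inf := hh.1
  int := fun v => by
    by_cases hv : ∃ j < ℓ, v = B.o j
    · obtain ⟨j, hj, rfl⟩ := hv
      exact ⟨(hh.2.2 j hj).1, (hh.2.2 j hj).2.1⟩
    · exact H281.isIntegralAt_of_triv281 (hh.2.1 v fun j hj e => hv ⟨j, hj, e⟩)
  orbit := fun w hw => by
    obtain ⟨j, hj, rfl⟩ := hB.orbit_all w hw
    exact inIw_of_inIwahori218 (hh.2.2 j hj)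
  base := fun w hw => by
    have ht : TrivAtFin w h := hh.2.1 w fun j hj e => hw (e ▸ hB.orbit_over j)
    rw [finGL_one_of_triv218 ht]
    exact T6.H777.inU_one777 _

/-- The replaced components are bi-invariant under the components of a stabilising element. -/
theorem repUp_inv218 {B : L2Base K K'} {T₀ T : Finset (HeightOneSpectrum (𝓞 K))}
    {T' : Finset (HeightOneSpectrum (𝓞 K'))} {n₀ : HeightOneSpectrum (𝓞 K') → ℕ}
    {φ₀ : ∀ w : HeightOneSpectrum (𝓞 K'), GL (Fin 2) (w.adicCompletion K') → ℂ}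
    {f₀ : ∀ v : HeightOneSpectrum (𝓞 K), GL (Fin 2) (v.adicCompletion K) → ℂ} {h : G K'}
    (hover : IsOver305 T T') (hsph : SphOut893 B.l T₀ T φ₀ f₀) (hh : IsStab218 B n₀ h)
    (w : HeightOneSpectrum (𝓞 K')) (hw : w ∈ T') (x : GL (Fin 2) (w.adicCompletion K')) :
    repUp970 B T₀ n₀ φ₀ w (finGL305 w h * x) = repUp970 B T₀ n₀ φ₀ w x ∧
      repUp970 B T₀ n₀ φ₀ w (x * finGL305 w h) = repUp970 B T₀ n₀ φ₀ w x := by
  classical
  by_cases h1 : PlaceOver K K' B.u w
  · have e : repUp970 B T₀ n₀ φ₀ w = iwFn893 := by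
      unfold repUp970
      rw [if_pos h1]
    rw [e]
    exact iwFn_inv218 (hh.orbit w h1) x
  · by_cases h2 : ∃ v ∈ T₀, PlaceOver K K' v w
    · have e : repUp970 B T₀ n₀ φ₀ w = unitFn893 (n₀ w) := by
        unfold repUp970
        rw [if_neg h1, if_pos h2]
      rw [e]
      exact unitFn_inv218 (hh.base w h1) x
    · have e : repUp970 B T₀ n₀ φ₀ w = φ₀ w := by
        unfold repUp970
        rw [if_neg h1, if_neg h2]
      rw [e]
      obtain ⟨v, hv, hvw⟩ := (hover w).1 hw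
      have hv0 : v ∉ T₀ := fun hv0 => h2 ⟨v, hv0, hvw⟩
      obtain ⟨A, Av, -, hA, -, -⟩ := hsph v hv hv0
      exact sphFn_inv218 (hA w hvw) (inU_zero218 (hh.base w h1)) x

end Stab

/-! ## 3. The leaf -/

section Leaf

variable (K K' : Type) [Field K] [NumberField K] [Field K'] [NumberField K'] [Algebra K K']

/-- **LEAF T7.L2.1.H2a.4.4 = UP-2** (VERBATIM, unconditional). -/
theorem up2C218 : Up2C970 K K' := by
  intro ℓ hcyc hℓ2 htc Φ hΦ hconst B hB hram 𝔫 hlvl μc hμc T₀ n n₀ m hexp a D a' D' hrel s' hs'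
    c₁ Φ₁ F₁ hp1 hshape
  classical
  obtain ⟨Ω, _, _, _, _, _, _, ν, _, T, T', φ₀, Φc, f₀, Fc, hL, htU, -, hcU, -, hsU, -, hφ, -⟩ :=
    hshape
  have hX : ∀ x ∈ ([] : List (Gen K')), x.Out B.S' := fun x hx => absurd hx (List.not_mem_nil)
  -- the places of the level are in `T' ω`, with unit components
  have hunit : ∀ ω : Ω, ∀ v ∈ T₀, ∀ w : HeightOneSpectrum (𝓞 K'), PlaceOver K K' v w →
      w ∈ T' ω ∧ φ₀ ω w = unitFn893 (n w) := by
    intro ω v hv w hvw
    obtain ⟨hsub, hover, -, hup, -, -⟩ := hL ω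
    exact ⟨(hover w).2 ⟨v, hsub hv, hvw⟩, hup v hv w hvw⟩
  -- the members are integrable in the parameter
  have hint : ∀ z : G K', Integrable (fun ω => pure305 (T' ω) (φ₀ ω) (Φc ω) z) ν := by
    intro z
    have hc : Continuous (fun ω : Ω => pure305 (T' ω) (φ₀ ω) (Φc ω) z) :=
      hcU.comp (Continuous.prodMk_left z)
    exact hc.integrable_of_hasCompactSupport (HasCompactSupport.of_compactSpace _)
  -- `Ψ = ∫ P_ω`
  have hΨint : ∀ y : G K', lsum s' (Φ₁ []) y
      = ∫ ω, pure305 (T' ω) (repUp970 B T₀ n₀ (φ₀ ω)) (Φc ω) y ∂ν := by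
    intro y
    show ∑ x ∈ s', Φ₁ [] (x⁻¹ * y) = _
    have e1 : ∀ x ∈ s', Φ₁ [] (x⁻¹ * y)
        = ∫ ω, pure305 (T' ω) (φ₀ ω) (Φc ω) (x⁻¹ * y) ∂ν := fun x _ => hφ _
    rw [Finset.sum_congr rfl e1, ← integral_finsetSum s' (fun x _ => hint (x⁻¹ * y))]
    refine integral_congr_ae (Filter.Eventually.of_forall fun ω => ?_)
    exact hs'.rep (T' ω) (φ₀ ω) (Φc ω) (hunit ω) y
  -- the bi-invariance
  have hPinv : ∀ h : G K', IsStab218 B n₀ h → ∀ (ω : Ω) (y : G K'),
      pure305 (T' ω) (repUp970 B T₀ n₀ (φ₀ ω)) (Φc ω) (h * y)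
          = pure305 (T' ω) (repUp970 B T₀ n₀ (φ₀ ω)) (Φc ω) y ∧
        pure305 (T' ω) (repUp970 B T₀ n₀ (φ₀ ω)) (Φc ω) (y * h)
          = pure305 (T' ω) (repUp970 B T₀ n₀ (φ₀ ω)) (Φc ω) y := by
    intro h hh ω y
    obtain ⟨hsub, hover, -, hup, hsph, -⟩ := hL ω
    exact pure_inv218 hh.inf hh.int (fun w hw x => repUp_inv218 hover hsph hh w hw x) y
  have hΨinv : ∀ h : G K', IsStab218 B n₀ h → ∀ y : G K',
      lsum s' (Φ₁ []) (h * y) = lsum s' (Φ₁ []) y ∧
        lsum s' (Φ₁ []) (y * h) = lsum s' (Φ₁ []) y := by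
    intro h hh y
    rw [hΨint, hΨint, hΨint]
    exact ⟨integral_congr_ae (Filter.Eventually.of_forall fun ω => (hPinv h hh ω y).1),
      integral_congr_ae (Filter.Eventually.of_forall fun ω => (hPinv h hh ω y).2)⟩
  have hbi : H193.IsBiHInv B.𝔑₀ ℓ B.o (lsum s' (Φ₁ [])) :=
    ⟨fun u hu y => hΨinv u (isStab_of_level218 hB hexp.lvl_base hu) y,
      fun h h1 h2 h3 y => hΨinv h (isStab_of_iw218 hB ⟨h1, h2, h3⟩) y⟩
  -- `IsPre311` and the test function
  have hpre0 : H311.IsPre311 (upI (K' := K') 𝔫) B.R'.μ (Φ₁ []) :=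
    H311.isPre_of_test311 (hp1.up1_test [] hX) (hp1.up1_ek [] hX).1 (hp1.up1_ek [] hX).2
  have hpre : H311.IsPre311 (upI (K' := K') 𝔫) B.R'.μ (lsum s' (Φ₁ [])) := by
    have e : lsum s' (Φ₁ []) = fun y => ∑ x ∈ s', ltr x (Φ₁ []) y := rfl
    rw [e]
    exact H311.isPre_sum311 hB.frame'.frame s' (fun x => ltr x (Φ₁ []))
      fun x hx => hpre0.ltr hB.frame'.frame (hs'.supp x hx).1
  have htest : T5.IsTestFn (upI (K' := K') 𝔫) T5.trivType (lsum s' (Φ₁ [])) :=
    { ktype := (hp1.up1_test [] hX).ktype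
      cont := hpre.cont
      supp := hpre.supp
      smooth := hpre.smooth
      inv :=
        { level_right := hpre.level_right
          level_left := fun u hu g =>
            (hbi.1 u (H193.inLevelGroup_mono193 hlvl.level_g hu) g).1
          arch_right := fun w k hk g => by
            rw [hpre.arch_right w k hk g]
            show _ = ((1 : ℂ))⁻¹ * _
            rw [inv_one, one_mul]
          arch_left := fun w k hk g => by
            rw [hpre.arch_left w k hk g]
            show _ = ((1 : ℂ))⁻¹ * _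
            rw [inv_one, one_mul] } }
  -- the torus mean
  obtain ⟨k1, k2, k3, k4, k5, k6⟩ :=
    H193.killing_of_torus193 (T1.t1Out K') B.R' hB.frame' (upI (K' := K') 𝔫) B.𝔑₀
      (upI_ne_bot218 hlvl.level_ne) hlvl.level_g ℓ B.o
      (H193.isTorusData_mono193 hlvl.level_g hrel.up) (lsum s' (Φ₁ [])) htest hpre.ek
      hpre.ek_adj hbi
  refine ⟨k1, ⟨k2, k3⟩, k4, ?_, k6, ?_, ?_⟩
  · -- up2_op
    intro ψ C hψ x
    rw [k5 ψ hψ.inv.cusp.cont hψ.inv.arch_scalar x,
      H277.Rconv_lsum277 hB.frame'.frame s' hpre0.cont hpre0.supp hψ.inv.cusp.cont x]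
    show ∑ h ∈ s', T5.Rconv B.R'.μ (Φ₁ []) ψ (x * h) = (s'.card : ℂ) * c₁ C * ψ x
    have e : ∀ h ∈ s', T5.Rconv B.R'.μ (Φ₁ []) ψ (x * h) = c₁ C * ψ x := by
      intro h hh
      rw [hp1.up1_op [] hX ψ C hψ (x * h)]
      obtain ⟨i, u, hi, hu, rfl⟩ := hs'.mem h hh
      have e1 : ψ (x * (i * u)) = ψ x := by
        rw [← mul_assoc, hψ.inv.cusp.aut.level_inv u hu, hψ.inv.iw i hi.1 hi.2.1 hi.2.2]
      have e2 : wordEv ([] : List (Gen K')) C = 1 := rfl
      rw [e1, e2, one_mul]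
    rw [Finset.sum_congr rfl e, Finset.sum_const, nsmul_eq_mul, mul_assoc]
  · -- up2_ne
    intro C hC
    exact mul_ne_zero (Nat.cast_ne_zero.2 (Finset.card_ne_zero.2 hs'.nonempty))
      (hp1.up1_ne C hC)
  · -- up2_supp
    refine ⟨tsupport (H193.nat193 a' D' (lsum s' (Φ₁ []))), k1.supp,
      T5.H32.isIwSupported_of_support32 ?_⟩
    intro y hy j hj
    have h1 : ∃ t : InfinitePlace K' → ℝ, lsum s' (Φ₁ []) (y * (a' t)⁻¹) ≠ 0 := by
      by_contra hne
      simp only [not_exists, not_not] at hne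
      apply hy
      show _ * ∫ t in D', lsum s' (Φ₁ []) (y * (a' t)⁻¹) = 0
      simp only [hne, integral_zero, mul_zero]
    obtain ⟨t, ht⟩ := h1
    have h2 : ∃ ω : Ω,
        pure305 (T' ω) (repUp970 B T₀ n₀ (φ₀ ω)) (Φc ω) (y * (a' t)⁻¹) ≠ 0 := by
      by_contra hne
      simp only [not_exists, not_not] at hne
      apply ht
      rw [hΨint]
      simp only [hne, integral_zero]
    obtain ⟨ω, hω⟩ := h2
    obtain ⟨hsub, hover, -, -, -, -⟩ := hL ω
    have hmem : B.o j ∈ T' ω :=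
      (hover _).2 ⟨B.u, hsub ((hexp.mem B.u).2 hlvl.u_level), hB.orbit_over j⟩
    have hz : T5.InIwahori (B.o j) (y * (a' t)⁻¹) := by
      unfold pure305 at hω
      split_ifs at hω with hout
      · have hprod := left_ne_zero_of_mul hω
        have hfac := Finset.prod_ne_zero_iff.1 hprod (B.o j) hmem
        have e : repUp970 B T₀ n₀ (φ₀ ω) (B.o j) = iwFn893 := by
          unfold repUp970
          rw [if_pos (hB.orbit_over j)]
        rw [e] at hfac
        unfold iwFn893 at hfac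
        split_ifs at hfac with hiw
        · exact inIwahori_of_inIw218 hiw
        · exact absurd rfl hfac
      · exact absurd rfl hω
    have hy' : y = (y * (a' t)⁻¹) * a' t := by group
    rw [hy']
    exact H340.inIwahori_mul340 hz (H281.inIwahori_of_triv281 (hrel.up.fin t (B.o j)))

end Leaf

end Fermat.Agent.LT.T7.H218

end
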